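import Mathlib
import Fermat.Prelude.Def_GaloisRep_LocalConditions
import Fermat.Agent.S31.Plan

/-!
# S34: interface (definitions only)

S34 (a Hecke–Galois datum of level `N` away from `S` has unipotent inertia at every prime `q ≠ p`
exactly dividing `N`) is reduced in `Fermat/Agent/S34/Reduction.lean` to

* `Fermat.Agent.Cheb.WeakChebotarev` (item 70), and
* `ESPkgUnip N p`: the faithful `p`-adic Eichler–Shimura package of S31
  (`ES.ESDataInf N p J ∧ S31.ESFaith N p J`) together with the clause `ESUnip N p J`:
  for a prime `q ≠ p` exactly dividing `N`, every `σ` in an inertia group at `q` satisfies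
  `(σ − 1)² = 0` on the `p`-power torsion of `J` (semistable reduction of `J₀(N)` at `q`).
-/

set_option autoImplicit false

namespace Fermat.Agent.S34

open ModularCurve Fermat.Agent.ES

/-- Inertia at the primes `q ≠ p` exactly dividing `N` acts unipotently (of level 2) on the
`p`-power torsion of `J`. -/
def ESUnip (N p : ℕ) (J : Type) [AddCommGroup J] [DistribMulAction GQ J] : Prop :=
  ∀ q : ℕ, q.Prime → q ≠ p → q ∣ N → ¬ q ^ 2 ∣ N →
    ∀ P : ValuationSubring (AlgebraicClosure ℚ), P.LiesOverPrime q →
      ∀ σ ∈ P.inertiaSubgroupIn ℚ, ∀ x : J, IsPPowerTorsion p x →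
        σ • σ • x - 2 • (σ • x) + x = 0

/-- The package consumed by S34. -/
def ESPkgUnip (N p : ℕ) [NeZero N] : Prop :=
  ∃ (J : Type) (_ : AddCommGroup J) (_ : Module HeckeAlg J) (_ : DistribMulAction GQ J),
    ESDataInf N p J ∧ Fermat.Agent.S31.ESFaith N p J ∧ ESUnip N p J

end Fermat.Agent.S34
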