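import Mathlib
import Fermat.Agent.S34.Plan
import Fermat.Agent.S31.Reduction

/-!
# S34 from weak Chebotarev and the faithful `p`-adic Eichler–Shimura package with unipotent inertia

`unipotent_of_pkg`: the statement of S34 under the hypotheses `Cheb.WeakChebotarev` and
`ESPkgUnip N p`.

Proof. `IsUnipotentOnInertiaAt` asks `charpoly ρ(σ) = (X − 1)²`, i.e. `det ρ(σ) = 1` and
`tr ρ(σ) = 2`, for `σ` in an inertia group at `q`. Both are proved modulo `𝔪ᵏ` for all `k`.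
Weak Chebotarev gives `σ = τᵐ` on a large finite Galois extension `F`, `τ` a Frobenius at `ℓ ∉ S`.
As `σ` fixes `μ_{pⁿ}`, `ℓᵐ ≡ 1 mod pⁿ`; so `det ρ(σ) ≡ det ρ(τ)ᵐ = ℓᵐ ≡ 1`. On `J[pⁿ]`
`s_m(T_ℓ, ℓ) = τᵐ + ℓᵐ τ⁻ᵐ = σ + σ⁻¹ = 2`, so by faithfulness
`tr ρ(σ) ≡ s_m(π T_ℓ, ℓ) ≡ 2`.
-/

set_option autoImplicit false

namespace Fermat.Agent.S34

open ModularCurve Fermat.Agent.ES Fermat.Agent.S31 Polynomial

section rank2

variable {A V : Type*} [CommRing A] [Nontrivial A] [AddCommGroup V] [Module A V]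
  [Module.Free A V] [Module.Finite A V]

/-- the characteristic polynomial in rank 2 -/
theorem charpoly_eq_of_finrank_two (hV : Module.finrank A V = 2) (f : Module.End A V) :
    LinearMap.charpoly f = X ^ 2 - C (LinearMap.trace A V f) * X + C (LinearMap.det f) := by
  classical
  let b : Module.Basis (Fin 2) A V := Module.finBasisOfFinrankEq A V hV
  rw [← LinearMap.charpoly_toMatrix f b, Matrix.charpoly_fin_two,
    LinearMap.trace_eq_matrix_trace A b f, ← LinearMap.det_toMatrix b f]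

/-- the determinant from the characteristic polynomial in rank 2 -/
theorem det_of_charpoly (hV : Module.finrank A V = 2) (f : Module.End A V) (a d : A)
    (h : LinearMap.charpoly f = X ^ 2 - C a * X + C d) : LinearMap.det f = d := by
  have h1 := charpoly_eq_of_finrank_two hV f
  rw [h] at h1
  have h2 := congrArg (fun P : A[X] => P.coeff 0) h1
  simpa using h2.symm

/-- an endomorphism congruent to `1` modulo `I` has determinant congruent to `1` -/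
theorem det_sub_one_mem (hV : Module.finrank A V = 2) (I : Ideal A) (h : Module.End A V)
    (hh : ∀ v : V, h v - v ∈ I • (⊤ : Submodule A V)) : LinearMap.det h - 1 ∈ I := by
  classical
  let b : Module.Basis (Fin 2) A V := Module.finBasisOfFinrankEq A V hV
  have hent : ∀ i j : Fin 2, LinearMap.toMatrix b b h i j - (1 : Matrix (Fin 2) (Fin 2) A) i j ∈ I := by
    intro i j
    have := functional_mem_of_mem_smul_top I (b.coord i) (hh (b j))
    rw [map_sub, Module.Basis.coord_apply, Module.Basis.coord_apply, Module.Basis.repr_self,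
      ← LinearMap.toMatrix_apply] at this
    rw [Matrix.one_apply]
    convert this using 2
    rw [Finsupp.single_apply]
    simp only [eq_comm]
  rw [← LinearMap.det_toMatrix b h, Matrix.det_fin_two]
  have h00 := hent 0 0
  have h01 := hent 0 1
  have h10 := hent 1 0
  have h11 := hent 1 1
  simp only [Matrix.one_apply_eq, Matrix.one_apply_ne, ne_eq, Fin.isValue, zero_ne_one,
    one_ne_zero, not_false_eq_true, sub_zero] at h00 h01 h10 h11
  set M := LinearMap.toMatrix b b h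
  have e : M 0 0 * M 1 1 - M 0 1 * M 1 0 - 1 =
      (M 0 0 - 1) * M 1 1 + (M 1 1 - 1) - M 0 1 * M 1 0 := by ring
  rw [e]
  exact I.sub_mem (I.add_mem (I.mul_mem_right _ h00) h11) (I.mul_mem_right _ h01)

end rank2

section congr

variable {T : Type} [CommRing T] [IsLocalRing T]

/-- if `γ` and `g` agree on a field of definition of `ρ mod 𝔪ᵏ`, the determinants of `ρ(γ)` and
`ρ(g)` are congruent modulo `𝔪ᵏ` -/
theorem det_congr_of_agree (ρ : GaloisRepAdic T) (k : ℕ)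
    (L : IntermediateField ℚ (AlgebraicClosure ℚ))
    (hL : ∀ σ : AlgebraicClosure ℚ ≃ₐ[ℚ] AlgebraicClosure ℚ, (∀ x ∈ L, σ x = x) →
      ∀ v : ρ.V, ρ.ρ σ v - v ∈ (IsLocalRing.maximalIdeal T ^ k) • (⊤ : Submodule T ρ.V))
    (γ g : AlgebraicClosure ℚ ≃ₐ[ℚ] AlgebraicClosure ℚ) (h : ∀ a ∈ L, γ a = g a) :
    LinearMap.det (ρ.ρ g) - LinearMap.det (ρ.ρ γ) ∈ IsLocalRing.maximalIdeal T ^ k := by
  set u : AlgebraicClosure ℚ ≃ₐ[ℚ] AlgebraicClosure ℚ := γ⁻¹ * g with hu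
  have huL : ∀ a ∈ L, u a = a := by
    intro a ha
    rw [hu, AlgEquiv.mul_apply, ← h a ha, ← AlgEquiv.mul_apply, inv_mul_cancel,
      AlgEquiv.one_apply]
  have hg : g = γ * u := by rw [hu, mul_inv_cancel_left]
  have e : LinearMap.det (ρ.ρ g) - LinearMap.det (ρ.ρ γ) =
      LinearMap.det (ρ.ρ γ) * (LinearMap.det (ρ.ρ u) - 1) := by
    rw [hg, map_mul, map_mul, mul_sub, mul_one]
  rw [e]
  exact Ideal.mul_mem_left _ _ (det_sub_one_mem ρ.finrank_eq _ _ (hL u huL))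

end congr

/-- `ℓᵐ ≡ 1 mod pⁿ` if `τᵐ` (τ a Frobenius at `ℓ ≠ p`) agrees on `μ_{pⁿ}` with an element of an
inertia group at `q ≠ p`. -/
theorem cyclo_congr_one {p : ℕ} (hp : p.Prime) (n : ℕ) {ζ : AlgebraicClosure ℚ}
    (hζ : IsPrimitiveRoot ζ (p ^ n))
    (F : IntermediateField ℚ (AlgebraicClosure ℚ)) (hζF : ζ ∈ F)
    {q : ℕ} (hq : q.Prime) (hqp : q ≠ p) {P : ValuationSubring (AlgebraicClosure ℚ)}
    (hP : P.LiesOverPrime q) {σ : GQ} (hσ : σ ∈ P.inertiaSubgroupIn ℚ)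
    {ℓ : ℕ} (hℓ : ℓ.Prime) (hℓp : ℓ ≠ p)
    {A : ValuationSubring (AlgebraicClosure ℚ)} (hA : A.LiesOverPrime ℓ)
    {τ : GQ} (hτ : A.IsFrobeniusAt τ ℓ) (m : ℕ) (hg : ∀ a ∈ F, (τ ^ m) a = σ a) :
    ℓ ^ m ≡ 1 [MOD p ^ n] := by
  have hM0 : p ^ n ≠ 0 := pow_ne_zero n hp.ne_zero
  have hζ1 : ζ ^ (p ^ n) = 1 := hζ.pow_eq_one
  have h1 : (τ ^ m) ζ = ζ ^ (ℓ ^ m) :=
    frob_pow_rootOfUnity A (natCast_pow_not_mem_nonunits A hp hℓ hℓp hA n) hM0 hτ hζ1 m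
  have h2 : σ ζ = ζ :=
    inertia_rootOfUnity P (natCast_pow_not_mem_nonunits P hp hq hqp hP n) hM0 hσ hζ1
  have h3 : ζ ^ (ℓ ^ m) = ζ ^ 1 := by
    rw [← h1, hg ζ hζF, h2, pow_one]
  have h4 := (hζ.isOfFinOrder hM0).pow_eq_pow_iff_modEq.mp h3
  rw [← hζ.eq_orderOf] at h4
  exact h4

variable {p : ℕ} {N : ℕ} [NeZero N] {S : Finset ℕ}
  {𝒪 : Type} [CommRing 𝒪] [IsDomain 𝒪] [IsDiscreteValuationRing 𝒪]
  [IsAdicComplete (IsLocalRing.maximalIdeal 𝒪) 𝒪]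
  {θ : CuspForm.heckeAlgebra N 2 (↑S : Set ℕ) →+* IsLocalRing.ResidueField 𝒪}
  {T : Type} [CommRing T] [IsLocalRing T] [IsNoetherianRing T]
  [IsAdicComplete (IsLocalRing.maximalIdeal T) T] [Algebra 𝒪 T] [IsLocalHom (algebraMap 𝒪 T)]
  [Module.Finite 𝒪 T] [Module.Free 𝒪 T]

omit [IsAdicComplete (IsLocalRing.maximalIdeal T) T] in
/-- an element of all the powers of the maximal ideal is zero -/
theorem eq_zero_of_forall_mem_pow {x : T} (h : ∀ k : ℕ, x ∈ IsLocalRing.maximalIdeal T ^ k) :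
    x = 0 := by
  have hbot : ⨅ k, IsLocalRing.maximalIdeal T ^ k = ⊥ :=
    Ideal.iInf_pow_eq_bot_of_isLocalRing _ (Ideal.IsMaximal.ne_top inferInstance)
  have hmem : x ∈ (⊥ : Ideal T) := by
    rw [← hbot]
    exact (Ideal.mem_iInf).mpr h
  exact (Ideal.mem_bot).mp hmem

/-- **S34, reduced** to weak Chebotarev and the faithful `p`-adic Eichler–Shimura package with
unipotent inertia. -/
theorem unipotent_of_pkg (hcheb : Cheb.WeakChebotarev) (hpkg : ESPkgUnip N p) (hp : p.Prime)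
    (hp𝒪 : (p : 𝒪) ∈ IsLocalRing.maximalIdeal 𝒪) (hpS : p ∈ S)
    (hNS : ∀ q : ℕ, q.Prime → q ∣ N → q ∈ S)
    (H : CuspForm.HeckeGaloisRepDatum N (↑S : Set ℕ) 𝒪 θ T)
    (q : ℕ) (hq : q.Prime) (hqp : q ≠ p) (hqN : q ∣ N) (hq2 : ¬ q ^ 2 ∣ N) :
    H.ρ.IsUnipotentOnInertiaAt q := by
  obtain ⟨J, _, _, _, hJ, hfaith, hunip⟩ := hpkg
  intro P hP σ hσ
  -- the primes outside `S` are good
  have hgoodN : ∀ r : ℕ, r.Prime → r ∉ S → ¬ r ∣ N := fun r hr hrS h => hrS (hNS r hr h)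
  have hgoodp : ∀ r : ℕ, r.Prime → r ∉ S → r ≠ p := fun r _ hrS h => hrS (h ▸ hpS)
  have hgood : ∀ r : ℕ, r.Prime → r ∉ S → ¬ r ∣ N * p := by
    intro r hr hrS h
    rcases (Nat.Prime.dvd_mul hr).mp h with h | h
    · exact hrS (hNS r hr h)
    · exact hgoodp r hr hrS ((Nat.prime_dvd_prime_iff_eq hr hp).mp h)
  have hpT : (p : T) ∈ IsLocalRing.maximalIdeal T := natCast_mem_maximalIdeal hp𝒪
  -- the common set-up for a given `k`
  have hsetup : ∀ k : ℕ, ∃ (n : ℕ) (ℓ : ℕ) (hℓ : ℓ.Prime) (hℓS : ℓ ∉ (↑S : Set ℕ)) (m : ℕ),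
      k ≤ n ∧ ℓ ^ m ≡ 1 [MOD p ^ n] ∧
      LinearMap.det (H.ρ.ρ σ) - (ℓ : T) ^ m ∈ IsLocalRing.maximalIdeal T ^ k ∧
      LinearMap.trace T H.ρ.V (H.ρ.ρ σ) -
        lucasS (H.π (CuspForm.heckeAlgebra.T hℓ (hgoodN ℓ hℓ hℓS) hℓS)) (ℓ : T) m ∈
          IsLocalRing.maximalIdeal T ^ k ∧
      lucasS (H.π (CuspForm.heckeAlgebra.T hℓ (hgoodN ℓ hℓ hℓS) hℓS)) (ℓ : T) m - 2 ∈
          IsLocalRing.maximalIdeal T ^ k := by
    intro k
    set Sg : Set Nat.Primes := outsideVars (↑S : Set ℕ) with hSgdef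
    have hSg : Sg ⊆ goodPrimes N p := fun r hr => hgood r r.2 hr
    have hSg' : ∀ r ∈ Sg, ¬ (r : ℕ) ∣ N ∧ (r : ℕ) ∉ (↑S : Set ℕ) := fun r hr =>
      ⟨hgoodN r r.2 hr, hr⟩
    obtain ⟨n₀, hn₀⟩ := hfaith Sg hSg k
    -- enlarge `n₀` to `n ≥ k`
    set n : ℕ := max n₀ k with hn_def
    have hn : ∀ t ∈ MvPolynomial.supported ℤ Sg, (∀ x : J, p ^ n • x = 0 → t • x = 0) →
        ∃ s ∈ MvPolynomial.supported ℤ Sg,
          CuspForm.heckeEvalForms N 2 t = (p : ℤ) ^ k • CuspForm.heckeEvalForms N 2 s := by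
      intro t ht hkill
      refine hn₀ t ht fun x hx => hkill x ?_
      have : p ^ n = p ^ (n - n₀) * p ^ n₀ := by
        rw [← pow_add, Nat.sub_add_cancel (le_max_left n₀ k)]
      rw [this, mul_smul, hx, smul_zero]
    obtain ⟨E, hEfin, hE⟩ := exists_common_field hJ n
    obtain ⟨L, hLfin, hL⟩ := H.ρ.isAdicContinuous k
    have hM0 : p ^ n ≠ 0 := pow_ne_zero n hp.ne_zero
    have : NeZero ((p ^ n : ℕ) : AlgebraicClosure ℚ) := ⟨Nat.cast_ne_zero.mpr hM0⟩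
    obtain ⟨ζ, hζ⟩ := HasEnoughRootsOfUnity.exists_primitiveRoot (AlgebraicClosure ℚ) (p ^ n)
    have hζfin : FiniteDimensional ℚ (IntermediateField.adjoin ℚ {ζ}) :=
      IntermediateField.adjoin.finiteDimensional
        ((hζ.isIntegral (Nat.pos_of_ne_zero hM0)).tower_top)
    obtain ⟨F, hFfin, hFgal, hEF, hLF, hζF⟩ :=
      exists_galois_hull E L (IntermediateField.adjoin ℚ {ζ})
    have hζF' : ζ ∈ F := hζF (IntermediateField.mem_adjoin_simple_self ℚ ζ)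
    have hF : ∀ σ : GQ, (∀ a ∈ F, σ a = a) → ∀ x : J, p ^ n • x = 0 → σ • x = x :=
      fun σ h => hE σ fun a ha => h a (hEF ha)
    obtain ⟨ℓ, A, τ, m, hℓ, hℓS, hA, hτ, hg⟩ := hcheb F S σ
    have hℓS' : ℓ ∉ (↑S : Set ℕ) := hℓS
    have hcyc : ℓ ^ m ≡ 1 [MOD p ^ n] :=
      cyclo_congr_one hp n hζ F hζF' hq hqp hP hσ hℓ (hgoodp ℓ hℓ hℓS) hA hτ m hg
    refine ⟨n, ℓ, hℓ, hℓS', m, le_max_right n₀ k, hcyc, ?_, ?_, ?_⟩
    · -- determinant
      have h1 := det_congr_of_agree H.ρ k L hL (τ ^ m) σ fun a ha => hg a (hLF ha)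
      rw [map_pow, map_pow, det_of_charpoly H.ρ.finrank_eq (H.ρ.ρ τ) _ _
        (H.charpoly_frob ℓ hℓ (hgoodN ℓ hℓ hℓS) hℓS' A hA τ hτ)] at h1
      exact h1
    · -- trace
      have h1 := trace_congr_of_agree H.ρ k L hL (τ ^ m) σ fun a ha => hg a (hLF ha)
      rw [map_pow, trace_pow_eq_lucasS H.ρ.finrank_eq (H.ρ.ρ τ) _ _
        (H.charpoly_frob ℓ hℓ (hgoodN ℓ hℓ hℓS) hℓS' A hA τ hτ) m] at h1
      exact h1
    · -- the Lucas polynomial minus 2 kills `J[pⁿ]`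
      set D : HeckeAlg := lucasS (heckeGen ⟨ℓ, hℓ⟩) (ℓ : HeckeAlg) m - 2 with hD
      have hDsupp : D ∈ MvPolynomial.supported ℤ Sg := by
        refine sub_mem (lucasS_mem_subalgebra _ ?_ (natCast_mem _ ℓ) m) (ofNat_mem _ 2)
        exact (MvPolynomial.X_mem_supported (R := ℤ)).mpr hℓS'
      have hDkill : ∀ x : J, p ^ n • x = 0 → D • x = 0 := by
        intro x hx
        have h1 := lucas_galois hJ n F hF hℓ (hgood ℓ hℓ hℓS) hA hτ m σ hg hx
        have h2 : (ℓ ^ m) • (σ⁻¹ • x) = 1 • (σ⁻¹ • x) :=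
          nsmul_eq_of_modEq hcyc (torsion_smul n σ⁻¹ hx)
        have h3 := hunip q hq hqp hqN hq2 P hP σ hσ (σ⁻¹ • x) ⟨n, torsion_smul n σ⁻¹ hx⟩
        rw [smul_inv_smul] at h3
        rw [h2, one_smul] at h1
        rw [hD, sub_smul, ← h1, ofNat_smul_eq_nsmul HeckeAlg 2 x]
        rw [← h3]
        abel
      obtain ⟨s, hs, hDs⟩ := hn D hDsupp hDkill
      have hev : evalS N (↑S : Set ℕ) D = (p : ℤ) ^ k • evalS N (↑S : Set ℕ) s := by
        apply Subtype.ext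
        rw [coe_evalS_eq hSg' hDsupp, hDs]
        have := coe_evalS_eq hSg' hs
        rw [Subalgebra.coe_smul, Subalgebra.coe_smul, this]
      have hπmem : H.π (evalS N (↑S : Set ℕ) D) ∈ IsLocalRing.maximalIdeal T ^ k := by
        rw [hev, map_zsmul, zsmul_eq_mul, Int.cast_pow, Int.cast_natCast]
        exact Ideal.mul_mem_right _ _ (Ideal.pow_mem_pow hpT k)
      have hval : H.π (evalS N (↑S : Set ℕ) D) =
          lucasS (H.π (CuspForm.heckeAlgebra.T hℓ (hgoodN ℓ hℓ hℓS) hℓS')) (ℓ : T) m - 2 := by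
        have := lucasS_map (H.π.comp (evalS N (↑S : Set ℕ)).toRingHom) (heckeGen ⟨ℓ, hℓ⟩)
          (ℓ : HeckeAlg) m
        simp only [RingHom.comp_apply, AlgHom.toRingHom_eq_coe, RingHom.coe_coe,
          map_natCast] at this
        rw [hD, map_sub, map_sub, this, evalS_heckeGen hℓ (hgoodN ℓ hℓ hℓS) hℓS', map_ofNat,
          map_ofNat]
      rw [hval] at hπmem
      exact hπmem
  -- `ℓᵐ − 1 ∈ 𝔪ᵏ`
  have hpow : ∀ (k n ℓ m : ℕ), k ≤ n → ℓ ^ m ≡ 1 [MOD p ^ n] →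
      (ℓ : T) ^ m - 1 ∈ IsLocalRing.maximalIdeal T ^ k := by
    intro k n ℓ m hkn hmod
    have h1 : ((p ^ n : ℕ) : ℤ) ∣ ((ℓ ^ m : ℕ) : ℤ) - ((1 : ℕ) : ℤ) :=
      (Nat.modEq_iff_dvd.mp hmod.symm)
    obtain ⟨c, hc⟩ := h1
    have h2 : (ℓ : T) ^ m - 1 = (p : T) ^ n * (c : T) := by
      have := congrArg (fun z : ℤ => (z : T)) hc
      simpa using this
    rw [h2]
    exact Ideal.mul_mem_right _ _ (Ideal.pow_le_pow_right hkn (Ideal.pow_mem_pow hpT n))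
  -- determinant and trace
  have hdet : LinearMap.det (H.ρ.ρ σ) = 1 := by
    have : LinearMap.det (H.ρ.ρ σ) - 1 = 0 := by
      apply eq_zero_of_forall_mem_pow
      intro k
      obtain ⟨n, ℓ, hℓ, hℓS, m, hkn, hcyc, h1, -, -⟩ := hsetup k
      have h2 := hpow k n ℓ m hkn hcyc
      have e : LinearMap.det (H.ρ.ρ σ) - 1 =
          (LinearMap.det (H.ρ.ρ σ) - (ℓ : T) ^ m) + ((ℓ : T) ^ m - 1) := by ring
      rw [e]
      exact Ideal.add_mem _ h1 h2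
    exact sub_eq_zero.mp this
  have htr : LinearMap.trace T H.ρ.V (H.ρ.ρ σ) = 2 := by
    have : LinearMap.trace T H.ρ.V (H.ρ.ρ σ) - 2 = 0 := by
      apply eq_zero_of_forall_mem_pow
      intro k
      obtain ⟨n, ℓ, hℓ, hℓS, m, hkn, hcyc, -, h1, h2⟩ := hsetup k
      have e : LinearMap.trace T H.ρ.V (H.ρ.ρ σ) - 2 =
          (LinearMap.trace T H.ρ.V (H.ρ.ρ σ) -
            lucasS (H.π (CuspForm.heckeAlgebra.T hℓ (hgoodN ℓ hℓ hℓS) hℓS)) (ℓ : T) m) +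
          (lucasS (H.π (CuspForm.heckeAlgebra.T hℓ (hgoodN ℓ hℓ hℓS) hℓS)) (ℓ : T) m - 2) := by
        ring
      rw [e]
      exact Ideal.add_mem _ h1 h2
    exact sub_eq_zero.mp this
  rw [charpoly_eq_of_finrank_two H.ρ.finrank_eq, htr, hdet]
  have : (C (2 : T) : T[X]) = 2 := by
    rw [← map_ofNat (C : T →+* T[X]) 2]
  rw [this, map_one]
  ring

end Fermat.Agent.S34
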