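import Mathlib

/-!
# Automorphisms of a finitely generated field from a symmetry of the relations

`exists_algEquiv_adjoin_of_rel` : let `x : ι → L` be a family in a field extension `L / K` and
`σ : ι → ι` an involution such that every polynomial relation `p(x) = 0` over `K` implies
`p(x ∘ σ) = 0`.  Then there is a `K`-algebra automorphism `w` of `K(x)` with `w (x i) = x (σ i)`,
and `w ∘ w = id`.
-/

set_option autoImplicit false

noncomputable section

namespace Fermat.Agent.AL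

open MvPolynomial

variable {K L : Type*} [Field K] [Field L] [Algebra K L] {ι : Type*}

section Ring

variable (x : ι → L) (σ : ι → ι)

theorem alAbs_aeval_comp (p : MvPolynomial ι K) :
    aeval (x ∘ σ) p = aeval x (rename σ p) := (aeval_rename σ x p).symm

variable {x σ}

theorem alAbs_rel_symm (hσ : ∀ i, σ (σ i) = i)
    (hrel : ∀ p : MvPolynomial ι K, aeval x p = 0 → aeval (x ∘ σ) p = 0)
    (p : MvPolynomial ι K) (hp : aeval (x ∘ σ) p = 0) : aeval x p = 0 := by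
  have h1 : aeval x (rename σ p) = 0 := by rw [← alAbs_aeval_comp]; exact hp
  have h2 := hrel _ h1
  rw [alAbs_aeval_comp, rename_rename] at h2
  have h3 : (σ ∘ σ) = id := funext hσ
  rwa [h3, rename_id_apply] at h2

theorem alAbs_ker_eq (hσ : ∀ i, σ (σ i) = i)
    (hrel : ∀ p : MvPolynomial ι K, aeval x p = 0 → aeval (x ∘ σ) p = 0) :
    RingHom.ker (aeval x : MvPolynomial ι K →ₐ[K] L) =
      RingHom.ker (aeval (x ∘ σ) : MvPolynomial ι K →ₐ[K] L) := by
  ext p
  rw [RingHom.mem_ker, RingHom.mem_ker]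
  exact ⟨hrel p, alAbs_rel_symm hσ hrel p⟩

theorem alAbs_range_eq (hσ : ∀ i, σ (σ i) = i) :
    (aeval (x ∘ σ) : MvPolynomial ι K →ₐ[K] L).range =
      (aeval x : MvPolynomial ι K →ₐ[K] L).range := by
  rw [← Algebra.adjoin_range_eq_range_aeval, ← Algebra.adjoin_range_eq_range_aeval]
  congr 1
  apply Set.Subset.antisymm
  · rintro _ ⟨i, rfl⟩
    exact ⟨σ i, rfl⟩
  · rintro _ ⟨i, rfl⟩
    exact ⟨σ i, by simp [hσ i]⟩

/-- The automorphism of the range of `aeval x`. -/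
def alAbsRangeEquiv (hσ : ∀ i, σ (σ i) = i)
    (hrel : ∀ p : MvPolynomial ι K, aeval x p = 0 → aeval (x ∘ σ) p = 0) :
    (aeval x : MvPolynomial ι K →ₐ[K] L).range ≃ₐ[K]
      (aeval x : MvPolynomial ι K →ₐ[K] L).range :=
  (Ideal.quotientKerAlgEquivOfSurjective
      (AlgHom.rangeRestrict_surjective (aeval x : MvPolynomial ι K →ₐ[K] L))).symm.trans <|
    (Ideal.quotientEquivAlgOfEq K (by
      rw [AlgHom.ker_rangeRestrict, AlgHom.ker_rangeRestrict]
      exact alAbs_ker_eq hσ hrel)).trans <|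
    (Ideal.quotientKerAlgEquivOfSurjective
      (AlgHom.rangeRestrict_surjective (aeval (x ∘ σ) : MvPolynomial ι K →ₐ[K] L))).trans <|
    Subalgebra.equivOfEq _ _ (alAbs_range_eq hσ)

theorem alAbsRangeEquiv_apply (hσ : ∀ i, σ (σ i) = i)
    (hrel : ∀ p : MvPolynomial ι K, aeval x p = 0 → aeval (x ∘ σ) p = 0)
    (p : MvPolynomial ι K) :
    ((alAbsRangeEquiv hσ hrel ((aeval x : MvPolynomial ι K →ₐ[K] L).rangeRestrict p) :
      (aeval x : MvPolynomial ι K →ₐ[K] L).range) : L) = aeval (x ∘ σ) p := by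
  unfold alAbsRangeEquiv
  simp only [AlgEquiv.trans_apply]
  rw [Ideal.quotientKerAlgEquivOfSurjective_symm_apply]
  rfl

theorem alAbsRangeEquiv_coe (hσ : ∀ i, σ (σ i) = i)
    (hrel : ∀ p : MvPolynomial ι K, aeval x p = 0 → aeval (x ∘ σ) p = 0)
    (a : (aeval x : MvPolynomial ι K →ₐ[K] L).range) (p : MvPolynomial ι K)
    (hp : aeval x p = (a : L)) :
    ((alAbsRangeEquiv hσ hrel a : (aeval x : MvPolynomial ι K →ₐ[K] L).range) : L) =
      aeval (x ∘ σ) p := by
  have : a = (aeval x : MvPolynomial ι K →ₐ[K] L).rangeRestrict p := Subtype.ext hp.symm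
  rw [this]
  exact alAbsRangeEquiv_apply hσ hrel p

theorem alAbsRangeEquiv_invol (hσ : ∀ i, σ (σ i) = i)
    (hrel : ∀ p : MvPolynomial ι K, aeval x p = 0 → aeval (x ∘ σ) p = 0)
    (a : (aeval x : MvPolynomial ι K →ₐ[K] L).range) :
    alAbsRangeEquiv hσ hrel (alAbsRangeEquiv hσ hrel a) = a := by
  obtain ⟨p, hp⟩ := a.2
  apply Subtype.ext
  have h1 := alAbsRangeEquiv_coe hσ hrel a p hp
  have h2 := alAbsRangeEquiv_coe hσ hrel (alAbsRangeEquiv hσ hrel a) (rename σ p)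
    (by rw [h1, alAbs_aeval_comp])
  rw [h2, alAbs_aeval_comp, rename_rename]
  have h3 : (σ ∘ σ) = id := funext hσ
  rw [h3, rename_id_apply]
  exact hp

end Ring

section Field

open IntermediateField
open scoped IntermediateField.algebraAdjoinAdjoin

variable {x : ι → L} {σ : ι → ι}

/-- The automorphism of `K[x]`. -/
def alAbsAdjoinEquiv (hσ : ∀ i, σ (σ i) = i)
    (hrel : ∀ p : MvPolynomial ι K, aeval x p = 0 → aeval (x ∘ σ) p = 0) :
    Algebra.adjoin K (Set.range x) ≃ₐ[K] Algebra.adjoin K (Set.range x) :=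
  (Subalgebra.equivOfEq _ _ (Algebra.adjoin_range_eq_range_aeval K x)).trans <|
    (alAbsRangeEquiv hσ hrel).trans
      (Subalgebra.equivOfEq _ _ (Algebra.adjoin_range_eq_range_aeval K x).symm)

theorem alAbsAdjoinEquiv_coe (hσ : ∀ i, σ (σ i) = i)
    (hrel : ∀ p : MvPolynomial ι K, aeval x p = 0 → aeval (x ∘ σ) p = 0)
    (a : Algebra.adjoin K (Set.range x)) (p : MvPolynomial ι K) (hp : aeval x p = (a : L)) :
    ((alAbsAdjoinEquiv hσ hrel a : Algebra.adjoin K (Set.range x)) : L) = aeval (x ∘ σ) p := by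
  unfold alAbsAdjoinEquiv
  simp only [AlgEquiv.trans_apply]
  exact alAbsRangeEquiv_coe hσ hrel _ p hp

theorem alAbsAdjoinEquiv_gen (hσ : ∀ i, σ (σ i) = i)
    (hrel : ∀ p : MvPolynomial ι K, aeval x p = 0 → aeval (x ∘ σ) p = 0) (i : ι) :
    ((alAbsAdjoinEquiv hσ hrel ⟨x i, Algebra.subset_adjoin ⟨i, rfl⟩⟩ :
      Algebra.adjoin K (Set.range x)) : L) = x (σ i) := by
  rw [alAbsAdjoinEquiv_coe hσ hrel _ (X i) (by simp)]
  simp

theorem alAbsAdjoinEquiv_invol (hσ : ∀ i, σ (σ i) = i)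
    (hrel : ∀ p : MvPolynomial ι K, aeval x p = 0 → aeval (x ∘ σ) p = 0)
    (a : Algebra.adjoin K (Set.range x)) :
    alAbsAdjoinEquiv hσ hrel (alAbsAdjoinEquiv hσ hrel a) = a := by
  unfold alAbsAdjoinEquiv
  simp only [AlgEquiv.trans_apply]
  apply Subtype.ext
  have := alAbsRangeEquiv_invol hσ hrel
    (Subalgebra.equivOfEq _ _ (Algebra.adjoin_range_eq_range_aeval K x) a)
  have h2 := congrArg (fun z : (aeval x : MvPolynomial ι K →ₐ[K] L).range => (z : L)) this
  exact h2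

/-- The automorphism of `K(x)`. -/
def alAbsFieldEquiv (hσ : ∀ i, σ (σ i) = i)
    (hrel : ∀ p : MvPolynomial ι K, aeval x p = 0 → aeval (x ∘ σ) p = 0) :
    adjoin K (Set.range x) ≃ₐ[K] adjoin K (Set.range x) :=
  IsFractionRing.algEquivOfAlgEquiv (alAbsAdjoinEquiv hσ hrel)

theorem alAbsFieldEquiv_algebraMap (hσ : ∀ i, σ (σ i) = i)
    (hrel : ∀ p : MvPolynomial ι K, aeval x p = 0 → aeval (x ∘ σ) p = 0)
    (a : Algebra.adjoin K (Set.range x)) :
    alAbsFieldEquiv hσ hrel (algebraMap _ (adjoin K (Set.range x)) a) =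
      algebraMap _ (adjoin K (Set.range x)) (alAbsAdjoinEquiv hσ hrel a) :=
  IsFractionRing.algEquivOfAlgEquiv_algebraMap _ a

theorem alAbsFieldEquiv_gen (hσ : ∀ i, σ (σ i) = i)
    (hrel : ∀ p : MvPolynomial ι K, aeval x p = 0 → aeval (x ∘ σ) p = 0) (i : ι) :
    ((alAbsFieldEquiv hσ hrel ⟨x i, subset_adjoin K _ ⟨i, rfl⟩⟩ : adjoin K (Set.range x)) : L) =
      x (σ i) := by
  have h := alAbsFieldEquiv_algebraMap hσ hrel ⟨x i, Algebra.subset_adjoin ⟨i, rfl⟩⟩
  have h2 := congrArg (fun z : adjoin K (Set.range x) => (z : L)) h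
  simp only [algebraAdjoinAdjoin.coe_algebraMap] at h2
  rw [alAbsAdjoinEquiv_gen] at h2
  exact h2

theorem alAbsFieldEquiv_invol (hσ : ∀ i, σ (σ i) = i)
    (hrel : ∀ p : MvPolynomial ι K, aeval x p = 0 → aeval (x ∘ σ) p = 0)
    (y : adjoin K (Set.range x)) :
    alAbsFieldEquiv hσ hrel (alAbsFieldEquiv hσ hrel y) = y := by
  obtain ⟨a, b, -, rfl⟩ := IsFractionRing.div_surjective (Algebra.adjoin K (Set.range x)) y
  rw [map_div₀, map_div₀, alAbsFieldEquiv_algebraMap, alAbsFieldEquiv_algebraMap,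
    alAbsFieldEquiv_algebraMap, alAbsFieldEquiv_algebraMap, alAbsAdjoinEquiv_invol,
    alAbsAdjoinEquiv_invol]

end Field

end Fermat.Agent.AL

end
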