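import Fermat.Agent.S34.ALAnalytic
import Fermat.Agent.S34.ALAbstract
import Fermat.Prelude.Def_ModularCurve_X0ModL

/-!
# The Atkin–Lehner automorphism `w_q` of the function field of `X₀(qM)`, `q ∤ M` prime

For a field `K` with a ring homomorphism `K →+* ℂ` (e.g. `ℚ`, a number field, `ℚ̄`, `ℂ`) and
`N = M * q` with `q` prime, `q ∤ M`:

* `alRel` : every polynomial relation over `K` between the `j(Q^e)`, `e ∣ N`, also holds after the
  swap `d ↔ d q` (`d ∣ M`) of the indices;
* `atkinLehner K ι hq hqM : F_N ≃ₐ[K] F_N` (`F_N = modularFunctionFieldFullC K N`), with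
  `atkinLehner_low  : w (j(Q^d)) = j(Q^{dq})`, `atkinLehner_high : w (j(Q^{dq})) = j(Q^d)`,
  `atkinLehner_invol : w (w y) = y`.
-/

set_option autoImplicit false
set_option linter.unusedSectionVars false

noncomputable section

namespace Fermat.Agent.AL

open ModularCurve MvPolynomial UpperHalfPlane
open Fermat.Agent.S23 Fermat.Agent.S24 Fermat.Agent.S28

/-! ### The index swap -/

/-- The swap `d ↔ d q` on the divisors of `N` (identity elsewhere). -/
def alSwap (q N e : ℕ) : ℕ := if e ∣ N then (if q ∣ e then e / q else e * q) else e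

section Swap

variable {q M : ℕ} (hq : q.Prime) (hqM : ¬ q ∣ M)

include hq hqM

theorem alSwap_low {d : ℕ} (hd : d ∣ M) : alSwap q (M * q) d = d * q := by
  have h1 : d ∣ M * q := hd.mul_right q
  have h2 : ¬ q ∣ d := fun h => hqM (h.trans hd)
  rw [alSwap, if_pos h1, if_neg h2]

theorem alSwap_high {d : ℕ} (hd : d ∣ M) : alSwap q (M * q) (d * q) = d := by
  have h1 : d * q ∣ M * q := Nat.mul_dvd_mul_right hd q
  rw [alSwap, if_pos h1, if_pos (Dvd.intro_left d rfl), Nat.mul_div_cancel _ hq.pos]

theorem al_divisor_cases {e : ℕ} (he : e ∣ M * q) :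
    (e ∣ M) ∨ ∃ d, d ∣ M ∧ e = d * q := by
  by_cases h : q ∣ e
  · obtain ⟨d, rfl⟩ := h
    right
    refine ⟨d, ?_, mul_comm _ _⟩
    rw [mul_comm M q] at he
    exact (Nat.mul_dvd_mul_iff_left hq.pos).mp he
  · left
    exact (Nat.Coprime.dvd_mul_right ((hq.coprime_iff_not_dvd.mpr h).symm)).mp he

theorem alSwap_dvd {e : ℕ} (he : e ∣ M * q) : alSwap q (M * q) e ∣ M * q := by
  rcases al_divisor_cases hq hqM he with h | ⟨d, hd, rfl⟩
  · rw [alSwap_low hq hqM h]; exact Nat.mul_dvd_mul_right h q
  · rw [alSwap_high hq hqM hd]; exact hd.mul_right q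

theorem alSwap_invol (e : ℕ) : alSwap q (M * q) (alSwap q (M * q) e) = e := by
  by_cases he : e ∣ M * q
  · rcases al_divisor_cases hq hqM he with h | ⟨d, hd, rfl⟩
    · rw [alSwap_low hq hqM h, alSwap_high hq hqM h]
    · rw [alSwap_high hq hqM hd, alSwap_low hq hqM hd]
  · have : alSwap q (M * q) e = e := by rw [alSwap, if_neg he]
    rw [this, this]

end Swap

/-! ### The generators -/

/-- The generator `j(Q^e)` for `e ∣ N` (and `0` otherwise). -/
def alGen (K : Type*) [CommRing K] (N e : ℕ) : LaurentSeries K :=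
  if h : e = 0 then 0 else if e ∣ N then @qExpand K _ e ⟨h⟩ (jqModC K) else 0

theorem alGen_of_dvd (K : Type*) [CommRing K] {N e : ℕ} [NeZero e] (he : e ∣ N) :
    alGen K N e = qExpand K e (jqModC K) := by
  rw [alGen, dif_neg (NeZero.ne e), if_pos he]

theorem alGen_of_not_dvd (K : Type*) [CommRing K] {N e : ℕ} (he : ¬ e ∣ N) :
    alGen K N e = 0 := by
  rw [alGen]
  split_ifs <;> rfl

theorem alGen_zero (K : Type*) [CommRing K] (N : ℕ) : alGen K N 0 = 0 := by
  rw [alGen, dif_pos rfl]

theorem coeffMap_alGen {K S : Type*} [CommRing K] [CommRing S] (f : K →+* S) (N e : ℕ) :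
    coeffMap f (alGen K N e) = alGen S N e := by
  by_cases h0 : e = 0
  · subst h0; rw [alGen_zero, alGen_zero, map_zero]
  · have : NeZero e := ⟨h0⟩
    by_cases he : e ∣ N
    · rw [alGen_of_dvd K he, alGen_of_dvd S he]
      exact coeffMap_jqNModC f e
    · rw [alGen_of_not_dvd K he, alGen_of_not_dvd S he, map_zero]

theorem range_alGen (K : Type*) [Field K] (N : ℕ) [NeZero N] :
    Set.range (alGen K N) = insert 0 (divisorExpansionsC K N) := by
  ext y
  constructor
  · rintro ⟨e, rfl⟩
    by_cases h0 : e = 0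
    · subst h0; rw [alGen_zero]; exact Set.mem_insert _ _
    · have : NeZero e := ⟨h0⟩
      by_cases he : e ∣ N
      · rw [alGen_of_dvd K he]
        exact Set.mem_insert_of_mem _ (mem_divisorExpansionsC K N he)
      · rw [alGen_of_not_dvd K he]; exact Set.mem_insert _ _
  · rintro (rfl | ⟨d, hd0, hd, rfl⟩)
    · exact ⟨0, alGen_zero K N⟩
    · exact ⟨d, alGen_of_dvd K hd⟩

theorem adjoin_range_alGen (K : Type*) [Field K] (N : ℕ) [NeZero N] :
    IntermediateField.adjoin K (Set.range (alGen K N)) = modularFunctionFieldFullC K N := by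
  rw [range_alGen, modularFunctionFieldFullC]
  apply le_antisymm
  · rw [IntermediateField.adjoin_le_iff]
    rintro y (rfl | hy)
    · exact zero_mem _
    · exact IntermediateField.subset_adjoin K _ hy
  · exact IntermediateField.adjoin.mono K _ _ (Set.subset_insert _ _)

/-! ### The function family -/

/-- The function `τ ↦ J(e τ)` for `e ∣ N` (and `0` otherwise). -/
def alFun (N e : ℕ) : ℍ → ℂ :=
  if h : e = 0 then 0 else if e ∣ N then fun τ => Jfun (@scaleN e ⟨h⟩ τ) else 0

theorem alFun_of_dvd {N e : ℕ} [NeZero e] (he : e ∣ N) :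
    alFun N e = fun τ => Jfun (scaleN e τ) := by
  rw [alFun, dif_neg (NeZero.ne e), if_pos he]

theorem alFun_of_not_dvd {N e : ℕ} (he : ¬ e ∣ N) : alFun N e = 0 := by
  rw [alFun]
  split_ifs <;> rfl

theorem alFun_zero (N : ℕ) : alFun N 0 = 0 := by
  rw [alFun, dif_pos rfl]

theorem alFun_isMerInf (N e : ℕ) : IsMerInf (alFun N e) := by
  by_cases h0 : e = 0
  · subst h0; rw [alFun_zero]; exact merInf.zero_mem
  · have : NeZero e := ⟨h0⟩
    by_cases he : e ∣ N
    · rw [alFun_of_dvd he]; exact isMerInf_comp_scaleN e isMerInf_Jfun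
    · rw [alFun_of_not_dvd he]; exact merInf.zero_mem

/-- The function family, in the algebra `merInf`. -/
def alFunM (N e : ℕ) : merInf := ⟨alFun N e, alFun_isMerInf N e⟩

theorem laurentExp_alFunM (N e : ℕ) : laurentExp (alFunM N e) = alGen ℂ N e := by
  rw [laurentExp_apply]
  show laurentOf (alFun N e) = _
  by_cases h0 : e = 0
  · subst h0; rw [alFun_zero, alGen_zero]; exact laurentOf_zero
  · have : NeZero e := ⟨h0⟩
    by_cases he : e ∣ N
    · rw [alFun_of_dvd he, alGen_of_dvd ℂ he]; exact laurentOf_Jfun_scaleN e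
    · rw [alFun_of_not_dvd he, alGen_of_not_dvd ℂ he]; exact laurentOf_zero

section Analytic

variable {q M : ℕ} [NeZero q] [NeZero M] (hq : q.Prime) (hqM : ¬ q ∣ M)
  (a b : ℤ) (h : (q : ℤ) * a - (M : ℤ) * b = 1)

include hq hqM

/-- `J_e ∘ W = J_{swap e}`. -/
theorem alFun_alW (e : ℕ) (τ : ℍ) :
    alFun (M * q) e (alW q M a b h τ) = alFun (M * q) (alSwap q (M * q) e) τ := by
  by_cases he : e ∣ M * q
  · rcases al_divisor_cases hq hqM he with hd | ⟨d, hd, rfl⟩
    · have hd0 : e ≠ 0 := fun h0 => NeZero.ne M (by rw [h0, zero_dvd_iff] at hd; exact hd)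
      have : NeZero e := ⟨hd0⟩
      have : NeZero (e * q) := ⟨Nat.mul_ne_zero hd0 (NeZero.ne q)⟩
      have h2 : e * q ∣ M * q := Nat.mul_dvd_mul_right hd q
      rw [alSwap_low hq hqM hd, alFun_of_dvd he, alFun_of_dvd h2]
      exact alW_J_low q M a b h hd τ
    · have hd0 : d ≠ 0 := fun h0 => NeZero.ne M (by rw [h0, zero_dvd_iff] at hd; exact hd)
      have : NeZero d := ⟨hd0⟩
      have : NeZero (d * q) := ⟨Nat.mul_ne_zero hd0 (NeZero.ne q)⟩
      have h2 : d ∣ M * q := hd.mul_right q
      rw [alSwap_high hq hqM hd, alFun_of_dvd he, alFun_of_dvd h2]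
      exact alW_J_high q M a b h hd τ
  · have : alSwap q (M * q) e = e := by rw [alSwap, if_neg he]
    rw [this, alFun_of_not_dvd he]
    rfl

end Analytic

/-! ### Stability of the relations -/

/-- Evaluation at a point, as an algebra homomorphism on `merInf`. -/
def alEval (τ : ℍ) : merInf →ₐ[ℂ] ℂ :=
  (Pi.evalAlgHom ℂ (fun _ : ℍ => ℂ) τ).comp merInf.val

theorem alEval_apply (τ : ℍ) (f : merInf) : alEval τ f = (f : ℍ → ℂ) τ := rfl

theorem al_coeffMap_aeval {K : Type*} [Field K] (ι : K →+* ℂ) (y : ℕ → LaurentSeries K)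
    (p : MvPolynomial ℕ K) :
    coeffMap ι (aeval y p) = aeval (fun e => coeffMap ι (y e)) (MvPolynomial.map ι p) := by
  rw [aeval_def, aeval_def, eval₂_map, eval₂_comp_left]
  congr 1
  ext c : 1
  simp only [RingHom.comp_apply]
  rw [algebraMap_laurentSeries_eq_single, algebraMap_laurentSeries_eq_single, coeffMap_single]

theorem al_coeffMap_injective {K : Type*} [Field K] (ι : K →+* ℂ) :
    Function.Injective (coeffMap ι) := by
  intro x y hxy
  ext k
  have := congrArg (fun z : LaurentSeries ℂ => z.coeff k) hxy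
  simp only [coeffMap_coeff] at this
  exact ι.injective this

section Rel

variable {q M : ℕ} [NeZero q] [NeZero M] (hq : q.Prime) (hqM : ¬ q ∣ M)

include hq hqM

/-- Stability of the relations over `ℂ`. -/
theorem alRel_complex (p : MvPolynomial ℕ ℂ) (hp : aeval (alGen ℂ (M * q)) p = 0) :
    aeval (alGen ℂ (M * q) ∘ alSwap q (M * q)) p = 0 := by
  -- Bezout
  have hcop : IsCoprime (q : ℤ) (M : ℤ) :=
    Nat.isCoprime_iff_coprime.mpr ((Nat.Prime.coprime_iff_not_dvd hq).mpr hqM)
  obtain ⟨u, v, huv⟩ := hcop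
  have hab : (q : ℤ) * u - (M : ℤ) * (-v) = 1 := by linear_combination huv
  -- the relation between functions
  have e1 : aeval (alGen ℂ (M * q)) p = laurentExp (aeval (alFunM (M * q)) p) := by
    rw [comp_aeval_apply]
    exact congrArg (fun f => aeval f p)
      (funext fun e => (laurentExp_alFunM (M * q) e).symm)
  have h1 : aeval (alFunM (M * q)) p = 0 := by
    apply laurentExp_injective
    rw [← e1, hp, map_zero]
  have h2 : aeval (alFunM (M * q) ∘ alSwap q (M * q)) p = 0 := by
    apply Subtype.ext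
    funext τ
    have e2 : alEval τ (aeval (alFunM (M * q) ∘ alSwap q (M * q)) p) =
        alEval (alW q M u (-v) hab τ) (aeval (alFunM (M * q)) p) := by
      rw [comp_aeval_apply, comp_aeval_apply]
      exact congrArg (fun f => aeval f p)
        (funext fun e => (alFun_alW hq hqM u (-v) hab e τ).symm)
    rw [h1, map_zero] at e2
    exact e2
  have e3 : aeval (alGen ℂ (M * q) ∘ alSwap q (M * q)) p =
      laurentExp (aeval (alFunM (M * q) ∘ alSwap q (M * q)) p) := by
    rw [comp_aeval_apply]
    exact congrArg (fun f => aeval f p)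
      (funext fun e => (laurentExp_alFunM (M * q) _).symm)
  rw [e3, h2, map_zero]

/-- **Stability of the relations** between the `j(Q^e)`, `e ∣ qM`, under the swap `d ↔ dq`. -/
theorem alRel {K : Type*} [Field K] (ι : K →+* ℂ) (p : MvPolynomial ℕ K)
    (hp : aeval (alGen K (M * q)) p = 0) :
    aeval (alGen K (M * q) ∘ alSwap q (M * q)) p = 0 := by
  apply al_coeffMap_injective ι
  rw [map_zero, al_coeffMap_aeval]
  have h1 := al_coeffMap_aeval ι (alGen K (M * q)) p
  rw [hp, map_zero] at h1
  have h2 : (fun e => coeffMap ι (alGen K (M * q) e)) = alGen ℂ (M * q) :=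
    funext fun e => coeffMap_alGen ι (M * q) e
  rw [h2] at h1
  have h3 := alRel_complex hq hqM _ h1.symm
  have h4 : (fun e => coeffMap ι ((alGen K (M * q) ∘ alSwap q (M * q)) e)) =
      alGen ℂ (M * q) ∘ alSwap q (M * q) :=
    funext fun e => coeffMap_alGen ι (M * q) _
  rw [h4]
  exact h3

end Rel

/-! ### The automorphism -/

section Main

variable (K : Type*) [Field K] (ι : K →+* ℂ) {q M : ℕ} [NeZero q] [NeZero M] [NeZero (M * q)]
  (hq : q.Prime) (hqM : ¬ q ∣ M)

/-- The Atkin–Lehner automorphism of `K(range alGen)`. -/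
def atkinLehnerAux : IntermediateField.adjoin K (Set.range (alGen K (M * q))) ≃ₐ[K]
    IntermediateField.adjoin K (Set.range (alGen K (M * q))) :=
  alAbsFieldEquiv (x := alGen K (M * q)) (σ := alSwap q (M * q)) (alSwap_invol hq hqM)
    (fun p hp => alRel hq hqM ι p hp)

/-- **The Atkin–Lehner automorphism `w_q`** of `F_{Mq} = K(j(Q^e) : e ∣ Mq)`, `q ∤ M` prime. -/
def atkinLehner : modularFunctionFieldFullC K (M * q) ≃ₐ[K] modularFunctionFieldFullC K (M * q) :=
  (IntermediateField.equivOfEq (adjoin_range_alGen K (M * q)).symm).trans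
    ((atkinLehnerAux K ι hq hqM).trans (IntermediateField.equivOfEq (adjoin_range_alGen K (M * q))))

theorem alGen_mem (e : ℕ) : alGen K (M * q) e ∈ modularFunctionFieldFullC K (M * q) := by
  rw [← adjoin_range_alGen]
  exact IntermediateField.subset_adjoin K _ ⟨e, rfl⟩

/-- `w_q (j_e) = j_{swap e}`. -/
theorem atkinLehner_gen (e : ℕ) :
    ((atkinLehner K ι hq hqM ⟨alGen K (M * q) e, alGen_mem K e⟩ :
      modularFunctionFieldFullC K (M * q)) : LaurentSeries K) =
      alGen K (M * q) (alSwap q (M * q) e) :=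
  alAbsFieldEquiv_gen (x := alGen K (M * q)) (σ := alSwap q (M * q)) (alSwap_invol hq hqM)
    (fun p hp => alRel hq hqM ι p hp) e

/-- `w_q ∘ w_q = id`. -/
theorem atkinLehner_invol (y : modularFunctionFieldFullC K (M * q)) :
    atkinLehner K ι hq hqM (atkinLehner K ι hq hqM y) = y := by
  unfold atkinLehner
  simp only [AlgEquiv.trans_apply]
  apply Subtype.ext
  have h := alAbsFieldEquiv_invol (x := alGen K (M * q)) (σ := alSwap q (M * q))
    (alSwap_invol hq hqM) (fun p hp => alRel hq hqM ι p hp)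
    (IntermediateField.equivOfEq (adjoin_range_alGen K (M * q)).symm y)
  exact congrArg (fun z : IntermediateField.adjoin K (Set.range (alGen K (M * q))) =>
    (z : LaurentSeries K)) h

theorem atkinLehner_symm : (atkinLehner K ι hq hqM).symm = atkinLehner K ι hq hqM := by
  apply AlgEquiv.ext
  intro y
  rw [AlgEquiv.symm_apply_eq, atkinLehner_invol]

/-- `w_q (j(Q^d)) = j(Q^{dq})` for `d ∣ M`. -/
theorem atkinLehner_low {d : ℕ} [NeZero d] [NeZero (d * q)] (hd : d ∣ M) :
    ((atkinLehner K ι hq hqM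
      ⟨qExpand K d (jqModC K), jqModCd_mem_full K (M * q) (hd.mul_right q)⟩ :
      modularFunctionFieldFullC K (M * q)) : LaurentSeries K) =
      qExpand K (d * q) (jqModC K) := by
  have h1 := atkinLehner_gen K ι hq hqM d
  rw [alSwap_low hq hqM hd, alGen_of_dvd K (Nat.mul_dvd_mul_right hd q)] at h1
  rw [← h1]
  congr 2
  exact Subtype.ext (alGen_of_dvd K (hd.mul_right q)).symm

/-- `w_q (j(Q^{dq})) = j(Q^d)` for `d ∣ M`. -/
theorem atkinLehner_high {d : ℕ} [NeZero d] [NeZero (d * q)] (hd : d ∣ M) :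
    ((atkinLehner K ι hq hqM
      ⟨qExpand K (d * q) (jqModC K), jqModCd_mem_full K (M * q) (Nat.mul_dvd_mul_right hd q)⟩ :
      modularFunctionFieldFullC K (M * q)) : LaurentSeries K) =
      qExpand K d (jqModC K) := by
  have h1 := atkinLehner_gen K ι hq hqM (d * q)
  rw [alSwap_high hq hqM hd, alGen_of_dvd K (hd.mul_right q)] at h1
  rw [← h1]
  congr 2
  exact Subtype.ext (alGen_of_dvd K (Nat.mul_dvd_mul_right hd q)).symm

end Main

/-! ### Uniqueness, the values on `F_M`, and the action on coefficients -/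

section Ext

variable (K : Type*) [Field K]

/-- Two ring homomorphisms on `F_N` which agree on the constants and on the generators are equal. -/
theorem al_ringHom_ext {L : Type*} [DivisionRing L] (N : ℕ) [NeZero N]
    (φ₁ φ₂ : modularFunctionFieldFullC K N →+* L)
    (hK : ∀ c : K, φ₁ (algebraMap K _ c) = φ₂ (algebraMap K _ c))
    (hgen : ∀ (d : ℕ) [NeZero d] (hd : d ∣ N),
      φ₁ ⟨qExpand K d (jqModC K), jqModCd_mem_full K N hd⟩ =
        φ₂ ⟨qExpand K d (jqModC K), jqModCd_mem_full K N hd⟩) :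
    φ₁ = φ₂ := by
  apply RingHom.ext
  rintro ⟨y, hy⟩
  refine IntermediateField.adjoin_induction (F := K) (s := divisorExpansionsC K N)
    (p := fun x hx => φ₁ ⟨x, hx⟩ = φ₂ ⟨x, hx⟩) ?_ ?_ ?_ ?_ ?_ hy
  · rintro x ⟨d, hne, hdvd, rfl⟩
    exact @hgen d hne hdvd
  · intro c
    exact hK c
  · intro x y hx hy h1 h2
    have e : (⟨x + y, add_mem hx hy⟩ : modularFunctionFieldFullC K N) = ⟨x, hx⟩ + ⟨y, hy⟩ := rfl
    rw [e, map_add, map_add, h1, h2]
  · intro x hx h1
    have e : (⟨x⁻¹, inv_mem hx⟩ : modularFunctionFieldFullC K N) = (⟨x, hx⟩)⁻¹ := rfl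
    rw [e, map_inv₀, map_inv₀, h1]
  · intro x y hx hy h1 h2
    have e : (⟨x * y, mul_mem hx hy⟩ : modularFunctionFieldFullC K N) = ⟨x, hx⟩ * ⟨y, hy⟩ := rfl
    rw [e, map_mul, map_mul, h1, h2]

end Ext

section Values

variable (K : Type*) [Field K] (ι : K →+* ℂ) {q M : ℕ} [NeZero q] [NeZero M] [NeZero (M * q)]
  (hq : q.Prime) (hqM : ¬ q ∣ M)

theorem al_mem_of_mem_low {f : LaurentSeries K} (hf : f ∈ modularFunctionFieldFullC K M) :
    f ∈ modularFunctionFieldFullC K (M * q) :=
  full_degeneracyC_le K (Dvd.intro q rfl) hf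

theorem al_qExpand_mem {f : LaurentSeries K} (hf : f ∈ modularFunctionFieldFullC K M) :
    qExpand K q f ∈ modularFunctionFieldFullC K (M * q) :=
  full_degeneracyC_map_le K M q ⟨f, hf, rfl⟩

/-- **`w_q f = f(Q^q)` for `f ∈ F_M`.** -/
theorem atkinLehner_of_mem_low {f : LaurentSeries K} (hf : f ∈ modularFunctionFieldFullC K M) :
    ((atkinLehner K ι hq hqM ⟨f, al_mem_of_mem_low K hf⟩ :
      modularFunctionFieldFullC K (M * q)) : LaurentSeries K) = qExpand K q f := by
  set φ₁ : modularFunctionFieldFullC K M →+* LaurentSeries K :=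
    ((modularFunctionFieldFullC K (M * q)).val : _ →+* LaurentSeries K).comp
      ((atkinLehner K ι hq hqM).toRingEquiv.toRingHom.comp
        (IntermediateField.inclusion (full_degeneracyC_le K (Dvd.intro q rfl)) :
          modularFunctionFieldFullC K M →ₐ[K] modularFunctionFieldFullC K (M * q)).toRingHom)
    with hφ₁
  set φ₂ : modularFunctionFieldFullC K M →+* LaurentSeries K :=
    (qExpand K q).comp ((modularFunctionFieldFullC K M).val : _ →+* LaurentSeries K) with hφ₂
  have key : φ₁ = φ₂ := by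
    apply al_ringHom_ext K M
    · intro c
      show ((atkinLehner K ι hq hqM (algebraMap K _ c) : modularFunctionFieldFullC K (M * q)) :
        LaurentSeries K) = qExpand K q (algebraMap K (LaurentSeries K) c)
      rw [AlgEquiv.commutes]
      exact ((qExpandAlgHomC K q).commutes c).symm
    · intro d _ hd
      have : NeZero (d * q) := ⟨Nat.mul_ne_zero (NeZero.ne d) (NeZero.ne q)⟩
      show ((atkinLehner K ι hq hqM ⟨qExpand K d (jqModC K), _⟩ :
        modularFunctionFieldFullC K (M * q)) : LaurentSeries K) =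
          qExpand K q (qExpand K d (jqModC K))
      rw [atkinLehner_low K ι hq hqM hd, qExpand_qExpand]
      exact qExpand_congr (mul_comm d q) _
  exact congrArg (fun φ : modularFunctionFieldFullC K M →+* LaurentSeries K => φ ⟨f, hf⟩) key

/-- **`w_q (f(Q^q)) = f` for `f ∈ F_M`.** -/
theorem atkinLehner_qExpand {f : LaurentSeries K} (hf : f ∈ modularFunctionFieldFullC K M) :
    ((atkinLehner K ι hq hqM ⟨qExpand K q f, al_qExpand_mem K hf⟩ :
      modularFunctionFieldFullC K (M * q)) : LaurentSeries K) = f := by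
  have h1 := atkinLehner_of_mem_low K ι hq hqM hf
  have h2 : (⟨qExpand K q f, al_qExpand_mem K hf⟩ : modularFunctionFieldFullC K (M * q)) =
      atkinLehner K ι hq hqM ⟨f, al_mem_of_mem_low K hf⟩ := Subtype.ext h1.symm
  rw [h2, atkinLehner_invol]

end Values

section Galois

variable (K : Type*) [Field K] (ι : K →+* ℂ) {q M : ℕ} [NeZero q] [NeZero M] [NeZero (M * q)]
  (hq : q.Prime) (hqM : ¬ q ∣ M)

/-- The action on coefficients preserves `F_N`. -/
theorem al_coeffMap_mem (N : ℕ) [NeZero N] (σ : K →+* K) {y : LaurentSeries K}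
    (hy : y ∈ modularFunctionFieldFullC K N) : coeffMap σ y ∈ modularFunctionFieldFullC K N := by
  refine IntermediateField.adjoin_induction (F := K) (s := divisorExpansionsC K N)
    (p := fun x _ => coeffMap σ x ∈ modularFunctionFieldFullC K N) ?_ ?_ ?_ ?_ ?_ hy
  · rintro x ⟨d, hne, hdvd, rfl⟩
    have := hne
    have h := coeffMap_jqNModC σ d
    rw [jqNModC] at h
    rw [h]
    exact jqModCd_mem_full K N hdvd
  · intro c
    rw [algebraMap_laurentSeries_eq_single, coeffMap_single, ← algebraMap_laurentSeries_eq_single]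
    exact IntermediateField.algebraMap_mem _ _
  · intro x y _ _ h1 h2
    rw [map_add]; exact add_mem h1 h2
  · intro x _ h1
    rw [map_inv₀]; exact inv_mem h1
  · intro x y _ _ h1 h2
    rw [map_mul]; exact mul_mem h1 h2

/-- **`w_q` commutes with the action of ring endomorphisms of `K` on the coefficients.** -/
theorem atkinLehner_coeffMap (σ : K →+* K) (y : modularFunctionFieldFullC K (M * q)) :
    ((atkinLehner K ι hq hqM ⟨coeffMap σ (y : LaurentSeries K), al_coeffMap_mem K (M * q) σ y.2⟩ :
      modularFunctionFieldFullC K (M * q)) : LaurentSeries K) =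
      coeffMap σ ((atkinLehner K ι hq hqM y : modularFunctionFieldFullC K (M * q)) :
        LaurentSeries K) := by
  set τ : modularFunctionFieldFullC K (M * q) →+* modularFunctionFieldFullC K (M * q) :=
    ((coeffMap σ).comp ((modularFunctionFieldFullC K (M * q)).val : _ →+* LaurentSeries K)).codRestrict
      (modularFunctionFieldFullC K (M * q)).toSubfield.toSubring
      (fun z => al_coeffMap_mem K (M * q) σ z.2) with hτ
  set φ₁ : modularFunctionFieldFullC K (M * q) →+* LaurentSeries K :=
    ((modularFunctionFieldFullC K (M * q)).val : _ →+* LaurentSeries K).comp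
      ((atkinLehner K ι hq hqM).toRingEquiv.toRingHom.comp τ) with hφ₁
  set φ₂ : modularFunctionFieldFullC K (M * q) →+* LaurentSeries K :=
    (coeffMap σ).comp (((modularFunctionFieldFullC K (M * q)).val : _ →+* LaurentSeries K).comp
      (atkinLehner K ι hq hqM).toRingEquiv.toRingHom) with hφ₂
  have hgenfix : ∀ e : ℕ, coeffMap σ (alGen K (M * q) e) = alGen K (M * q) e :=
    fun e => coeffMap_alGen σ (M * q) e
  have key : φ₁ = φ₂ := by
    apply al_ringHom_ext K (M * q)
    · intro c
      show ((atkinLehner K ι hq hqM (τ (algebraMap K _ c)) : modularFunctionFieldFullC K (M * q)) :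
        LaurentSeries K) = coeffMap σ ((atkinLehner K ι hq hqM (algebraMap K _ c) :
          modularFunctionFieldFullC K (M * q)) : LaurentSeries K)
      have e1 : τ (algebraMap K _ c) = algebraMap K _ (σ c) := by
        apply Subtype.ext
        show coeffMap σ (algebraMap K (LaurentSeries K) c) = algebraMap K (LaurentSeries K) (σ c)
        rw [algebraMap_laurentSeries_eq_single, coeffMap_single,
          ← algebraMap_laurentSeries_eq_single]
      rw [e1, AlgEquiv.commutes, AlgEquiv.commutes]
      show algebraMap K (LaurentSeries K) (σ c) = coeffMap σ (algebraMap K (LaurentSeries K) c)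
      rw [algebraMap_laurentSeries_eq_single, algebraMap_laurentSeries_eq_single, coeffMap_single]
    · intro d _ hd
      show ((atkinLehner K ι hq hqM (τ ⟨qExpand K d (jqModC K), _⟩) :
        modularFunctionFieldFullC K (M * q)) : LaurentSeries K) =
          coeffMap σ ((atkinLehner K ι hq hqM ⟨qExpand K d (jqModC K), _⟩ :
            modularFunctionFieldFullC K (M * q)) : LaurentSeries K)
      have e0 : (⟨qExpand K d (jqModC K), jqModCd_mem_full K (M * q) hd⟩ :
          modularFunctionFieldFullC K (M * q)) = ⟨alGen K (M * q) d, alGen_mem K d⟩ :=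
        Subtype.ext (alGen_of_dvd K hd).symm
      have e1 : τ ⟨alGen K (M * q) d, alGen_mem K d⟩ = ⟨alGen K (M * q) d, alGen_mem K d⟩ :=
        Subtype.ext (hgenfix d)
      rw [e0, e1, atkinLehner_gen, hgenfix]
  exact congrArg (fun φ : modularFunctionFieldFullC K (M * q) →+* LaurentSeries K => φ y) key

end Galois

end Fermat.Agent.AL

end
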