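import Fermat.Agent.S28.Bridge

/-!
# Atkin–Lehner at an exact prime divisor: the analytic substitution

`N = q · M`, `gcd(q, M) = 1`, `q a - M b = 1`.  The substitution
`W τ = (q a τ + b) / (N τ + q) = γ₁ • (q τ)`, `γ₁ = [[a, b], [M, q]] ∈ SL₂(ℤ)`, satisfies for `d ∣ M`

* `alW_J_low  : J (d · W τ) = J (q d · τ)`,
* `alW_J_high : J (q d · W τ) = J (d · τ)`.
-/

set_option autoImplicit false
set_option linter.unusedSectionVars false

noncomputable section

namespace Fermat.Agent.AL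

open UpperHalfPlane ModularForm
open Fermat.Agent.S23 Fermat.Agent.S24
open scoped MatrixGroups ModularForm

/-- `γ₁ = [[a, b], [M, q]]`. -/
def alGamma1 (q M : ℕ) (a b : ℤ) (h : (q : ℤ) * a - (M : ℤ) * b = 1) : SL(2, ℤ) :=
  ⟨!![a, b; (M : ℤ), (q : ℤ)], by
    rw [Matrix.det_fin_two_of]; linear_combination h⟩

/-- `γ₂ = [[q a, b], [M, 1]]`. -/
def alGamma2 (q M : ℕ) (a b : ℤ) (h : (q : ℤ) * a - (M : ℤ) * b = 1) : SL(2, ℤ) :=
  ⟨!![(q : ℤ) * a, b; (M : ℤ), 1], by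
    rw [Matrix.det_fin_two_of]; linear_combination h⟩

variable (q M : ℕ) [NeZero q] [NeZero M] (a b : ℤ) (h : (q : ℤ) * a - (M : ℤ) * b = 1)

/-- The Atkin–Lehner substitution `τ ↦ γ₁ • (q τ)`. -/
def alW (τ : ℍ) : ℍ := alGamma1 q M a b h • scaleN q τ

theorem scaleN_scaleN (m n : ℕ) [NeZero m] [NeZero n] [NeZero (m * n)] (τ : ℍ) :
    scaleN m (scaleN n τ) = scaleN (m * n) τ := by
  ext1
  simp only [coe_scaleN]
  push_cast
  ring

theorem scaleN_alW (τ : ℍ) : scaleN q (alW q M a b h τ) = alGamma2 q M a b h • τ := by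
  ext1
  have hd1 := denom_ne_zero (alGamma1 q M a b h) (scaleN q τ)
  have hd2 := denom_ne_zero (alGamma2 q M a b h) τ
  rw [ModularGroup.denom_apply] at hd1 hd2
  rw [alW, coe_scaleN, coe_specialLinearGroup_apply, coe_specialLinearGroup_apply]
  simp only [alGamma1, alGamma2, coe_scaleN] at hd1 hd2 ⊢
  simp at hd1 hd2 ⊢
  have hq : (q : ℂ) ≠ 0 := by exact_mod_cast NeZero.ne q
  field_simp

theorem alGamma1_dvd {d : ℕ} (hd : d ∣ M) : (d : ℤ) ∣ (alGamma1 q M a b h) 1 0 := by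
  simp only [alGamma1]
  simpa using Int.natCast_dvd_natCast.mpr hd

theorem alGamma2_dvd {d : ℕ} (hd : d ∣ M) : (d : ℤ) ∣ (alGamma2 q M a b h) 1 0 := by
  simp only [alGamma2]
  simpa using Int.natCast_dvd_natCast.mpr hd

/-- `J (d · W τ) = J (d q · τ)` for `d ∣ M`. -/
theorem alW_J_low {d : ℕ} [NeZero d] [NeZero (d * q)] (hd : d ∣ M) (τ : ℍ) :
    Jfun (scaleN d (alW q M a b h τ)) = Jfun (scaleN (d * q) τ) := by
  rw [alW, P7_thetaCompanion_smul d _ (alGamma1_dvd q M a b h hd), Jfun_smul, scaleN_scaleN]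

/-- `J (d q · W τ) = J (d · τ)` for `d ∣ M`. -/
theorem alW_J_high {d : ℕ} [NeZero d] [NeZero (d * q)] (hd : d ∣ M) (τ : ℍ) :
    Jfun (scaleN (d * q) (alW q M a b h τ)) = Jfun (scaleN d τ) := by
  rw [← scaleN_scaleN d q, scaleN_alW, P7_thetaCompanion_smul d _ (alGamma2_dvd q M a b h hd),
    Jfun_smul]

end Fermat.Agent.AL

end
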