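import Fermat.Agent.S34.Reduction
import Fermat.Agent.Cheb.Final

/-!
# S34 from the faithful `p`-adic Eichler–Shimura package with unipotent inertia alone

Weak Chebotarev is proved (`Fermat.Agent.Cheb.weakChebotarev_holds`), so S34 needs only
`ESPkgUnip N p`.
-/

set_option autoImplicit false

namespace Fermat.Agent.S34

variable {p : ℕ} {N : ℕ} [NeZero N] {S : Finset ℕ}
  {𝒪 : Type} [CommRing 𝒪] [IsDomain 𝒪] [IsDiscreteValuationRing 𝒪]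
  [IsAdicComplete (IsLocalRing.maximalIdeal 𝒪) 𝒪]
  {θ : CuspForm.heckeAlgebra N 2 (↑S : Set ℕ) →+* IsLocalRing.ResidueField 𝒪}
  {T : Type} [CommRing T] [IsLocalRing T] [IsNoetherianRing T]
  [IsAdicComplete (IsLocalRing.maximalIdeal T) T] [Algebra 𝒪 T] [IsLocalHom (algebraMap 𝒪 T)]
  [Module.Finite 𝒪 T] [Module.Free 𝒪 T]

/-- **S34 from the package.** -/
theorem unipotent_of_esPkgUnip (hpkg : ESPkgUnip N p) (hp : p.Prime)
    (hp𝒪 : (p : 𝒪) ∈ IsLocalRing.maximalIdeal 𝒪) (hpS : p ∈ S)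
    (hNS : ∀ q : ℕ, q.Prime → q ∣ N → q ∈ S)
    (H : CuspForm.HeckeGaloisRepDatum N (↑S : Set ℕ) 𝒪 θ T)
    (q : ℕ) (hq : q.Prime) (hqp : q ≠ p) (hqN : q ∣ N) (hq2 : ¬ q ^ 2 ∣ N) :
    H.ρ.IsUnipotentOnInertiaAt q :=
  unipotent_of_pkg Fermat.Agent.Cheb.weakChebotarev_holds hpkg hp hp𝒪 hpS hNS H q hq hqp hqN hq2

end Fermat.Agent.S34
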