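import Fermat.Agent.S34.OfInputs
import Fermat.Agent.UNIP.MGFinal
import Fermat.Agent.INJ.InjAll
import Fermat.Agent.ES.TorsionUnifProved

/-!
# S34 from the special-fibre data `MgcData` (final wiring, helper23)

`s34_of_data` : the frozen statement S34 from the ONE remaining hypothesis of
`UNIP.stmtUnipKummer_of_data` (`MgcData A K₁ N σ τ hσ hτ` at every level `N`, prime `q ∥ N` with
`(q = 2 → 3 ∣ N)`, `(q = 3 → 2 ∣ N)`, valuation ring `A | q`, number field `K₁` Galois over `ℚ`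
and `σ, τ ∈ I_A`), via

* `S34.s34_of_inputs`            (S34 ⇐ `StmtINJAll` + `StmtUnipKummer` + `TorsionUnif`),
* `INJ.injAll_stmtINJAll`        (the INJ campaign),
* `ES.torsionUnif_proved`        (G1),
* `UNIP.stmtUnipKummer_of_data`  (MG-5 / G6).

`Fermat/Agent/S34.lean` is then `result := s34_of_data <the proof of MgcData> …`.
-/

set_option autoImplicit false
set_option linter.style.haveILetI false
set_option linter.unusedSectionVars false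
set_option linter.unusedVariables false

namespace Fermat.Agent.S34

open Fermat.Agent.ES Fermat.Agent.ES.G2 Fermat.Agent.INJ Fermat.Agent.UNIP
open ModularCurve AlgebraicCurve IsLocalRing CuspForm CuspForm.HeckeGaloisRepDatum
open IntermediateField

/-- **S34 from the special-fibre data.** -/
theorem s34_of_data
    (h : ∀ (N : ℕ) [NeZero N] (q : ℕ), q.Prime → q ∣ N → ¬ q ^ 2 ∣ N →
      (q = 2 → 3 ∣ N) → (q = 3 → 2 ∣ N) →
      ∀ (A : ValuationSubring Qb) (hA : A.LiesOverPrime q) (K₁ : IntermediateField ℚ Qb)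
      [NumberField K₁] [IsGalois ℚ K₁] [IsDiscreteValuationRing ↥(mgcA A K₁)]
      (σ : Qb ≃ₐ[ℚ] Qb) (_ : σ ∈ A.inertiaSubgroupIn ℚ)
      (τ : Qb ≃ₐ[ℚ] Qb) (_ : τ ∈ A.inertiaSubgroupIn ℚ)
      (hσ : ∀ x ∈ mgcE A K₁, σ x ∈ mgcE A K₁) (hτ : ∀ x ∈ mgcE A K₁, τ x ∈ mgcE A K₁),
      MgcData A K₁ N σ τ hσ hτ)
    {𝒪 : Type} [CommRing 𝒪] [IsDomain 𝒪] [IsDiscreteValuationRing 𝒪]
    [IsAdicComplete (maximalIdeal 𝒪) 𝒪] [Finite (ResidueField 𝒪)] [CharZero 𝒪]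
    {p : ℕ} (hp : p.Prime) (hp𝒪 : (p : 𝒪) ∈ maximalIdeal 𝒪)
    {N : ℕ} [NeZero N] {S : Finset ℕ} (hpS : p ∈ S) (hNS : ∀ q : ℕ, q.Prime → q ∣ N → q ∈ S)
    {θ : CuspForm.heckeAlgebra N 2 (↑S : Set ℕ) →+* ResidueField 𝒪}
    {T : Type} [CommRing T] [IsLocalRing T] [IsNoetherianRing T]
    [IsAdicComplete (maximalIdeal T) T] [Algebra 𝒪 T] [IsLocalHom (algebraMap 𝒪 T)]
    [Module.Finite 𝒪 T] [Module.Free 𝒪 T]
    (H : CuspForm.HeckeGaloisRepDatum N (↑S : Set ℕ) 𝒪 θ T)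
    (q : ℕ) (hq : q.Prime) (hqp : q ≠ p) (hqN : q ∣ N) (hq2 : ¬ q ^ 2 ∣ N) :
    H.ρ.IsUnipotentOnInertiaAt q :=
  s34_of_inputs Fermat.Agent.INJ.injAll_stmtINJAll
    (Fermat.Agent.UNIP.stmtUnipKummer_of_data h) hp hp𝒪
    (Fermat.Agent.ES.torsionUnif_proved N p hp.pos) hpS hNS H q hq hqp hqN hq2

end Fermat.Agent.S34
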