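import Mathlib
import Fermat.Agent.S34.Final
import Fermat.Agent.ES.FaithOfInputs
import Fermat.Agent.UNIP.Glue

/-!
# S34 from the remaining inputs of the Eichler–Shimura mountain (helper31)

* `esUnip_pDiv` : the clause `ESUnip N p` for `J₀(N)(ℚ̄)` gives the clause for the `p`-divisible
  torsion `PDiv N p` (on which the faithful `p`-adic package lives, `ES/TopFaith.lean`);
* `esPkgUnip_of_inputs` : `ESPkgUnip N p` from `INJ.StmtINJAll` (G2), `TorsionUnif N p` (G1) and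
  `ESUnip N p (JZero N)`;
* `s34_of_inputs` : S34 (frozen type) from `INJ.StmtINJAll`, `TorsionUnif N p` and
  `UNIP.StmtUnipKummer`.
-/

set_option autoImplicit false
set_option linter.style.haveILetI false

namespace Fermat.Agent.S34

open Fermat.Agent.ES ModularCurve IsLocalRing CuspForm CuspForm.HeckeGaloisRepDatum

section Pkg

variable {N p : ℕ} [NeZero N]

theorem esUnip_pDiv (h : ESUnip N p (JZero N)) :
    letI := pDivGalois N p
    ESUnip N p (PDiv N p) := by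
  letI := pDivGalois N p
  intro q hq hqp hqN hq2 P hP σ hσ x _
  exact Subtype.ext (h q hq hqp hqN hq2 P hP σ hσ x x.2.1)

theorem esPkgUnip_of_inputs (hINJ : Fermat.Agent.INJ.StmtINJAll) (hp : p.Prime)
    (hUT : TorsionUnif N p) (hU : ESUnip N p (JZero N)) : ESPkgUnip N p := by
  haveI : Fact p.Prime := ⟨hp⟩
  obtain ⟨μ, h⟩ := hUT
  have hm := multData_of_torsionUnifData hp.ne_zero h
  exact ⟨PDiv N p, inferInstance, pDivModule N p, pDivGalois N p,
    hm.esDataInf (stmtFiniteLevel N p hp.ne_zero)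
      (Fermat.Agent.ES.G2.stmtFrob_of_stmtINJAll hINJ N p)
      (Fermat.Agent.ES.G2.stmtUnram_of_stmtINJAll hINJ N p),
    hm.esFaith hp.ne_zero, esUnip_pDiv hU⟩

end Pkg

theorem s34_of_inputs (hINJ : Fermat.Agent.INJ.StmtINJAll)
    (hUK : Fermat.Agent.UNIP.StmtUnipKummer)
    {𝒪 : Type} [CommRing 𝒪] [IsDomain 𝒪] [IsDiscreteValuationRing 𝒪]
    [IsAdicComplete (maximalIdeal 𝒪) 𝒪] [Finite (ResidueField 𝒪)] [CharZero 𝒪]
    {p : ℕ} (hp : p.Prime) (hp𝒪 : (p : 𝒪) ∈ maximalIdeal 𝒪)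
    {N : ℕ} [NeZero N] (hUT : TorsionUnif N p)
    {S : Finset ℕ} (hpS : p ∈ S) (hNS : ∀ q : ℕ, q.Prime → q ∣ N → q ∈ S)
    {θ : CuspForm.heckeAlgebra N 2 (↑S : Set ℕ) →+* ResidueField 𝒪}
    {T : Type} [CommRing T] [IsLocalRing T] [IsNoetherianRing T]
    [IsAdicComplete (maximalIdeal T) T] [Algebra 𝒪 T] [IsLocalHom (algebraMap 𝒪 T)]
    [Module.Finite 𝒪 T] [Module.Free 𝒪 T]
    (H : CuspForm.HeckeGaloisRepDatum N (↑S : Set ℕ) 𝒪 θ T)
    (q : ℕ) (hq : q.Prime) (hqp : q ≠ p) (hqN : q ∣ N) (hq2 : ¬ q ^ 2 ∣ N) :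
    H.ρ.IsUnipotentOnInertiaAt q :=
  unipotent_of_esPkgUnip
    (esPkgUnip_of_inputs hINJ hp hUT (Fermat.Agent.UNIP.esUnip_of_stmtUnipKummer hUK N p hp))
    hp hp𝒪 hpS hNS H q hq hqp hqN hq2

end Fermat.Agent.S34
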